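import Mathlib
import Fermat.Prelude.Def_AlgebraicCurve_Repartitions

/-!
# Riemann–Roch for function fields (Weil's adelic proof), part 1: basic inequalities

Everything is phrased with the Prelude objects `AlgebraicCurve.Place`, `Divisor`,
`riemannRochSpace`, `repartitions`, `H1`, `genusFF`.
-/

set_option autoImplicit false

noncomputable section

namespace Fermat.Agent.S20.RR

open AlgebraicCurve WithZero

variable {K F : Type*} [Field K] [Field F] [Algebra K F]

/-- Basic hypotheses on a function field `F / K` (all places of degree one, principal divisors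
exist and have degree zero, functions without poles are constant). -/
structure Hyp0 (K F : Type*) [Field K] [Field F] [Algebra K F] : Prop where
  deg_one : ∀ v : Place K F, v.deg = 1
  principal : ∀ f : F, f ≠ 0 → ∃ D : Divisor K F, (∀ v, D v = v.ord f) ∧ Divisor.degree D = 0
  const : ∀ f : F, (∀ v : Place K F, 0 ≤ v.ord f) → ∃ c : K, f = algebraMap K F c

/-- The hypotheses on a function field `F / K` under which we prove Riemann–Roch. -/
structure Hyp (K F : Type*) [Field K] [Field F] [Algebra K F] : Prop extends Hyp0 K F where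
  bound : ∃ (B : Divisor K F) (c : ℤ), 0 ≤ B ∧ 0 < Divisor.degree B ∧
    ∀ l : ℕ, (l : ℤ) * Divisor.degree B - c ≤ (Module.finrank K (riemannRochSpace (l • B)) : ℤ)

/-- `ℓ(D)`. -/
def ell (D : Divisor K F) : ℕ := Module.finrank K (riemannRochSpace D)

section Place

variable (v : Place K F)

theorem exists_uniformizer : ∃ π : F, v.ord π = 1 := by
  obtain ⟨π, hπ⟩ := IsDiscreteValuationRing.exists_irreducible v.toValuationSubring
  exact ⟨π, v.ord_coe_irreducible hπ⟩

theorem ne_zero_of_ord_ne_zero {f : F} (h : v.ord f ≠ 0) : f ≠ 0 := by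
  rintro rfl
  exact h v.ord_zero

theorem mem_valuationSubring_iff {f : F} :
    f ∈ v.toValuationSubring ↔ f = 0 ∨ 0 ≤ v.ord f := by
  constructor
  · intro hf
    exact v.adicValuation_le_one_iff.mp (v.adicValuation_le_one_of_mem hf)
  · rintro (rfl | hf)
    · exact v.toValuationSubring.zero_mem
    · by_contra hmem
      have hf0 : f ≠ 0 := fun h => hmem (h ▸ v.toValuationSubring.zero_mem)
      have hinv : f⁻¹ ∈ v.toValuationSubring :=
        (v.toValuationSubring.mem_or_inv_mem f).resolve_left hmem
      -- `f⁻¹` is a non-unit of the valuation ring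
      have hnu : ¬ IsUnit (⟨f⁻¹, hinv⟩ : v.toValuationSubring) := by
        intro hu
        obtain ⟨u, hu⟩ := hu
        apply hmem
        have h1 : ((u⁻¹ : v.toValuationSubringˣ) : v.toValuationSubring) * ⟨f⁻¹, hinv⟩ = 1 := by
          rw [← hu]; exact Units.inv_mul u
        have h2 : (((u⁻¹ : v.toValuationSubringˣ) : v.toValuationSubring) : F) * f⁻¹ = 1 := by
          have := congrArg (Subtype.val) h1
          simpa using this
        have h3 : (((u⁻¹ : v.toValuationSubringˣ) : v.toValuationSubring) : F) = f := by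
          field_simp at h2
          exact h2
        rw [← h3]
        exact Subtype.mem _
      have hval : v.adicValuation f⁻¹ < 1 := by
        have h1 := v.adicValuation_le_one_of_mem hinv
        refine lt_of_le_of_ne h1 ?_
        intro h
        exact hnu ((v.adicValuation_coe_eq_one_iff ⟨f⁻¹, hinv⟩).mp h)
      have hord : 0 < v.ord f⁻¹ := by
        by_contra hle
        have hle : v.ord f⁻¹ ≤ 0 := not_lt.mp hle
        have : ¬ v.adicValuation f⁻¹ < 1 := by
          rw [not_lt]
          rw [v.adicValuation_eq_exp_neg_ord (inv_ne_zero hf0)]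
          rw [← WithZero.exp_zero, WithZero.exp_le_exp]
          omega
        exact this hval
      rw [v.ord_inv] at hord
      omega

/-- For `a` in the valuation ring: its residue vanishes iff `a = 0` or `ord a > 0`. -/
theorem residue_eq_zero_iff (a : v.toValuationSubring) :
    IsLocalRing.residue v.toValuationSubring a = 0 ↔ (a : F) = 0 ∨ 0 < v.ord (a : F) := by
  rw [IsLocalRing.residue_eq_zero_iff, IsLocalRing.mem_maximalIdeal, mem_nonunits_iff,
    ← v.adicValuation_coe_eq_one_iff]
  by_cases ha : (a : F) = 0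
  · simp [ha]
  · have hle : 0 ≤ v.ord (a : F) := ((mem_valuationSubring_iff v).mp a.2).resolve_left ha
    rw [v.adicValuation_eq_exp_neg_ord ha, ← WithZero.exp_zero, WithZero.exp_inj]
    constructor
    · intro h
      right
      omega
    · rintro (h | h)
      · exact absurd h ha
      · omega

/-- Elements of `F` with a pole of order at most `n` at `v`. -/
def poleLE (n : ℤ) : Submodule K F where
  carrier := {f | v.adicValuation f ≤ exp n}
  zero_mem' := by simp
  add_mem' := by
    intro f g (hf : v.adicValuation f ≤ exp n) (hg : v.adicValuation g ≤ exp n)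
    exact (Valuation.map_add _ _ _).trans (max_le hf hg)
  smul_mem' := by
    intro c f (hf : v.adicValuation f ≤ exp n)
    show v.adicValuation (c • f) ≤ exp n
    rw [Algebra.smul_def, map_mul]
    exact (mul_le_of_le_one_left' (v.adicValuation_algebraMap_le_one c)).trans hf

theorem mem_poleLE_iff {n : ℤ} {f : F} : f ∈ poleLE v n ↔ f = 0 ∨ -n ≤ v.ord f :=
  v.adicValuation_le_exp_iff

theorem poleLE_mono {m n : ℤ} (h : m ≤ n) : poleLE v m ≤ poleLE v n := by
  intro f hf
  rw [mem_poleLE_iff] at hf ⊢
  rcases hf with hf | hf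
  · exact Or.inl hf
  · exact Or.inr (by omega)

theorem uniformizer_ne_zero {π : F} (hπ : v.ord π = 1) : π ≠ 0 :=
  ne_zero_of_ord_ne_zero v (by omega)

theorem zpow_mul_mem {π : F} (hπ : v.ord π = 1) {n : ℤ} {f : F} (hf : f ∈ poleLE v n) :
    π ^ n * f ∈ v.toValuationSubring := by
  rw [mem_valuationSubring_iff]
  rcases (mem_poleLE_iff v).mp hf with rfl | h
  · left; simp
  · by_cases hf0 : f = 0
    · left; simp [hf0]
    · right
      rw [v.ord_mul (zpow_ne_zero n (uniformizer_ne_zero v hπ)) hf0, v.ord_zpow, hπ]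
      omega

/-- The "leading coefficient" map `f ↦ (π ^ n * f mod 𝔪)` on functions with pole order `≤ n`. -/
def resMap {π : F} (hπ : v.ord π = 1) (n : ℤ) : poleLE v n →ₗ[K] v.ResidueField where
  toFun f := IsLocalRing.residue v.toValuationSubring ⟨π ^ n * f, zpow_mul_mem v hπ f.2⟩
  map_add' f g := by
    rw [← map_add]
    congr 1
    apply Subtype.ext
    simp [mul_add]
  map_smul' c f := by
    simp only [RingHom.id_apply]
    rw [Algebra.smul_def, IsScalarTower.algebraMap_apply K v.toValuationSubring v.ResidueField,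
      IsLocalRing.ResidueField.algebraMap_eq, ← map_mul]
    congr 1
    apply Subtype.ext
    simp [Algebra.smul_def]
    ring

theorem resMap_eq_zero_iff {π : F} (hπ : v.ord π = 1) (n : ℤ) (f : poleLE v n) :
    resMap v hπ n f = 0 ↔ (f : F) ∈ poleLE v (n - 1) := by
  show IsLocalRing.residue v.toValuationSubring ⟨π ^ n * f, zpow_mul_mem v hπ f.2⟩ = 0 ↔ _
  rw [residue_eq_zero_iff, mem_poleLE_iff]
  have hπ0 := zpow_ne_zero n (uniformizer_ne_zero v hπ)
  by_cases hf0 : (f : F) = 0
  · simp [hf0]
  · simp only [mul_eq_zero, hπ0, hf0, or_self, false_or]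
    rw [v.ord_mul hπ0 hf0, v.ord_zpow, hπ]
    constructor <;> intro h <;> omega

theorem resMap_surjective {π : F} (hπ : v.ord π = 1) (n : ℤ) :
    Function.Surjective (resMap v hπ n) := by
  intro r
  obtain ⟨a, rfl⟩ := IsLocalRing.residue_surjective r
  have hπ0 := zpow_ne_zero n (uniformizer_ne_zero v hπ)
  have hmem : π ^ (-n) * (a : F) ∈ poleLE v n := by
    rw [mem_poleLE_iff]
    by_cases ha : (a : F) = 0
    · left; simp [ha]
    · right
      rw [v.ord_mul (zpow_ne_zero _ (uniformizer_ne_zero v hπ)) ha, v.ord_zpow, hπ]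
      have := ((mem_valuationSubring_iff v).mp a.2).resolve_left ha
      omega
  refine ⟨⟨_, hmem⟩, ?_⟩
  show IsLocalRing.residue v.toValuationSubring ⟨π ^ n * (π ^ (-n) * (a : F)), _⟩ = _
  congr 1
  apply Subtype.ext
  show π ^ n * (π ^ (-n) * (a : F)) = a
  rw [← mul_assoc, ← zpow_add₀ (uniformizer_ne_zero v hπ), add_neg_cancel, zpow_zero, one_mul]

end Place

section LinAlg

open Module

theorem finite_of_ker {M N : Type*} [AddCommGroup M] [Module K M] [AddCommGroup N]
    [Module K N] [Module.Finite K N] (φ : M →ₗ[K] N) [Module.Finite K (LinearMap.ker φ)] :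
    Module.Finite K M := by
  rw [Module.finite_def]
  refine Submodule.fg_of_fg_map_of_fg_inf_ker φ ?_ ?_
  · exact IsNoetherian.noetherian _
  · rw [top_inf_eq]
    exact (Submodule.fg_top _).mp (Module.finite_def.mp inferInstance)

theorem finrank_le_of_ker {M N : Type*} [AddCommGroup M] [Module K M] [AddCommGroup N]
    [Module K N] [Module.Finite K N] (φ : M →ₗ[K] N) [Module.Finite K (LinearMap.ker φ)] :
    finrank K M ≤ finrank K (LinearMap.ker φ) + finrank K N := by
  have := finite_of_ker φ
  have h := φ.finrank_range_add_finrank_ker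
  have h2 : finrank K (LinearMap.range φ) ≤ finrank K N := Submodule.finrank_le _
  omega

theorem finrank_eq_of_ker_of_surjective {M N : Type*} [AddCommGroup M] [Module K M]
    [AddCommGroup N] [Module K N] [Module.Finite K N] (φ : M →ₗ[K] N)
    [Module.Finite K (LinearMap.ker φ)] (hφ : Function.Surjective φ) :
    finrank K M = finrank K (LinearMap.ker φ) + finrank K N := by
  have := finite_of_ker φ
  have h := φ.finrank_range_add_finrank_ker
  rw [LinearMap.range_eq_top.mpr hφ, finrank_top] at h
  omega

end LinAlg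

section Divisor

open Module

theorem riemannRochSpace_le_poleLE (D : Divisor K F) (v : Place K F) :
    riemannRochSpace D ≤ poleLE v (D v) := fun _ hf => hf v

theorem riemannRochSpace_mono {D D' : Divisor K F} (h : D ≤ D') :
    riemannRochSpace D ≤ riemannRochSpace D' := fun _ hf v =>
  (hf v).trans (exp_le_exp.mpr (Finsupp.le_def.mp h v))

theorem finite_residueField (v : Place K F) (hv : v.deg = 1) :
    Module.Finite K v.ResidueField :=
  Module.finite_of_finrank_pos (by rw [show finrank K v.ResidueField = 1 from hv]; exact one_pos)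

/-- The leading coefficient map at `v` on `L(D)`. -/
def leadMap (D : Divisor K F) (v : Place K F) {π : F} (hπ : v.ord π = 1) :
    riemannRochSpace D →ₗ[K] v.ResidueField :=
  (resMap v hπ (D v)).comp (Submodule.inclusion (riemannRochSpace_le_poleLE D v))

theorem ker_leadMap (D : Divisor K F) (v : Place K F) {π : F} (hπ : v.ord π = 1) :
    LinearMap.ker (leadMap (D + Finsupp.single v 1) v hπ) =
      Submodule.comap (riemannRochSpace (D + Finsupp.single v 1)).subtype (riemannRochSpace D) := by
  ext f
  rw [LinearMap.mem_ker, Submodule.mem_comap]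
  show resMap v hπ _ _ = 0 ↔ _
  rw [resMap_eq_zero_iff]
  show (f : F) ∈ poleLE v _ ↔ (f : F) ∈ riemannRochSpace D
  have hv : (D + Finsupp.single v 1 : Divisor K F) v - 1 = D v := by simp
  rw [hv]
  classical
  constructor
  · intro h w
    by_cases hw : w = v
    · subst hw; exact h
    · have := f.2 w
      rwa [Finsupp.add_apply, Finsupp.single_apply, if_neg (Ne.symm hw), add_zero] at this
  · intro h
    exact h v

theorem le_add_single (D : Divisor K F) (v : Place K F) : D ≤ D + Finsupp.single v 1 := by
  classical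
  rw [Finsupp.le_def]
  intro w
  rw [Finsupp.add_apply, Finsupp.single_apply]
  split_ifs <;> omega

/-- One step: `L(D)` finite-dimensional implies `L(D + v)` finite-dimensional, of dimension at
most one more. -/
theorem finite_add_single (D : Divisor K F) (v : Place K F) (hv : v.deg = 1)
    (hD : Module.Finite K (riemannRochSpace D)) :
    Module.Finite K (riemannRochSpace (D + Finsupp.single v 1)) ∧
      ell (D + Finsupp.single v 1) ≤ ell D + 1 := by
  obtain ⟨π, hπ⟩ := exists_uniformizer v
  have hres := finite_residueField v hv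
  set φ := leadMap (D + Finsupp.single v 1) v hπ with hφ
  have hker := ker_leadMap D v hπ
  let e := Submodule.comapSubtypeEquivOfLe (riemannRochSpace_mono (le_add_single D v))
  have hfk : Module.Finite K (LinearMap.ker φ) := by
    rw [hker]
    exact Module.Finite.equiv e.symm
  refine ⟨finite_of_ker φ, ?_⟩
  have h1 := finrank_le_of_ker φ
  have h2 : finrank K (LinearMap.ker φ) = ell D := by
    rw [hker]
    exact e.finrank_eq
  have h3 : finrank K v.ResidueField = 1 := hv
  show finrank K _ ≤ _
  omega

theorem exists_multiset_of_nonneg {α : Type*} (E : α →₀ ℤ) (hE : 0 ≤ E) :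
    ∃ s : Multiset α, E = (s.map fun v => Finsupp.single v (1 : ℤ)).sum := by
  classical
  obtain ⟨g, rfl⟩ : ∃ g : α →₀ ℕ, E = g.mapRange (Nat.cast : ℕ → ℤ) Nat.cast_zero := by
    refine ⟨E.mapRange Int.toNat rfl, ?_⟩
    ext a
    simp only [Finsupp.mapRange_apply]
    have := Finsupp.le_def.mp hE a
    simp at this
    omega
  clear hE
  induction g using Finsupp.induction_linear with
  | zero => exact ⟨0, by simp⟩
  | add f g hf hg =>
    obtain ⟨s, hs⟩ := hf
    obtain ⟨t, ht⟩ := hg
    refine ⟨s + t, ?_⟩
    rw [Multiset.map_add, Multiset.sum_add, ← hs, ← ht]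
    ext a
    simp
  | single a b =>
    refine ⟨Multiset.replicate b a, ?_⟩
    rw [Multiset.map_replicate, Multiset.sum_replicate]
    ext c
    simp [Finsupp.single_apply]

theorem single_one_nonneg (v : Place K F) : (0 : Divisor K F) ≤ Finsupp.single v 1 := by
  classical
  rw [Finsupp.le_def]
  intro w
  rw [Finsupp.single_apply]
  split_ifs <;> simp

/-- Induction on divisors above a given one, adding one place at a time. -/
theorem induction_of_le {P : Divisor K F → Prop} {D : Divisor K F} (h0 : P D)
    (hstep : ∀ (E : Divisor K F) (v : Place K F), D ≤ E → P E → P (E + Finsupp.single v 1))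
    (E : Divisor K F) (hE : D ≤ E) : P E := by
  obtain ⟨s, hs⟩ := exists_multiset_of_nonneg (E - D) (sub_nonneg.mpr hE)
  have hE' : E = D + (s.map fun v => Finsupp.single v (1 : ℤ)).sum := by rw [← hs]; abel
  rw [hE']
  clear hs hE' hE
  induction s using Multiset.induction with
  | empty => simpa using h0
  | cons v s ih =>
    rw [Multiset.map_cons, Multiset.sum_cons, add_comm (Finsupp.single v 1), ← add_assoc]
    refine hstep _ v ?_ ih
    refine le_add_of_nonneg_right (Multiset.sum_nonneg ?_)
    intro x hx
    obtain ⟨w, -, rfl⟩ := Multiset.mem_map.mp hx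
    exact single_one_nonneg w

theorem degree_add_single (D : Divisor K F) (v : Place K F) (hv : v.deg = 1) :
    Divisor.degree (D + Finsupp.single v 1) = Divisor.degree D + 1 := by
  rw [map_add, Divisor.degree_single, hv]
  simp

section Hyp

variable (h : Hyp0 K F)
include h

/-- `L(0) = K`. -/
theorem riemannRochSpace_zero :
    riemannRochSpace (0 : Divisor K F) = LinearMap.range (Algebra.linearMap K F) := by
  ext f
  rw [mem_riemannRochSpace_iff, LinearMap.mem_range]
  constructor
  · intro hf
    obtain ⟨c, hc⟩ := h.const f (fun v => by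
      rcases hf v with rfl | hv
      · simp
      · simpa using hv)
    exact ⟨c, hc.symm⟩
  · rintro ⟨c, rfl⟩ v
    have := (v.adicValuation_le_one_iff).mp (v.adicValuation_algebraMap_le_one c)
    simpa using this

theorem finite_zero : Module.Finite K (riemannRochSpace (0 : Divisor K F)) := by
  rw [riemannRochSpace_zero h]
  infer_instance

theorem ell_zero : ell (0 : Divisor K F) = 1 := by
  show finrank K (riemannRochSpace (0 : Divisor K F)) = 1
  rw [riemannRochSpace_zero h, LinearMap.finrank_range_of_inj (FaithfulSMul.algebraMap_injective K F),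
    finrank_self]

/-- Finiteness and the crude bound, for effective divisors. -/
theorem finite_and_ell_le_of_nonneg (E : Divisor K F) (hE : 0 ≤ E) :
    Module.Finite K (riemannRochSpace E) ∧ (ell E : ℤ) ≤ Divisor.degree E + 1 := by
  refine induction_of_le (P := fun E => Module.Finite K (riemannRochSpace E) ∧
    (ell E : ℤ) ≤ Divisor.degree E + 1) ?_ ?_ E hE
  · exact ⟨finite_zero h, by rw [ell_zero h]; simp⟩
  · rintro E v - ⟨hfin, hle⟩
    obtain ⟨h1, h2⟩ := finite_add_single E v (h.deg_one v) hfin
    refine ⟨h1, ?_⟩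
    rw [degree_add_single E v (h.deg_one v)]
    omega

/-- `L(D)` is finite-dimensional for every divisor. -/
theorem finite (D : Divisor K F) : Module.Finite K (riemannRochSpace D) := by
  have h1 := (finite_and_ell_le_of_nonneg h (D ⊔ 0) le_sup_right).1
  exact Submodule.finiteDimensional_of_le (riemannRochSpace_mono (le_sup_left : D ≤ D ⊔ 0))

theorem ell_mono {D D' : Divisor K F} (hD : D ≤ D') : ell D ≤ ell D' := by
  have := finite h D'
  exact Submodule.finrank_mono (riemannRochSpace_mono hD)

theorem ell_sub_le {D D' : Divisor K F} (hD : D ≤ D') :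
    (ell D' : ℤ) - ell D ≤ Divisor.degree D' - Divisor.degree D := by
  refine induction_of_le (P := fun E => (ell E : ℤ) - ell D ≤ Divisor.degree E - Divisor.degree D)
    (by simp) ?_ D' hD
  intro E v _ hE
  have h2 := (finite_add_single E v (h.deg_one v) (finite h E)).2
  rw [degree_add_single E v (h.deg_one v)]
  omega

/-- Multiplication by `f` as a linear equivalence `L(D + (f)) ≃ L(D)`. -/
def mulEquiv {D D' : Divisor K F} {f : F} (hf : f ≠ 0) (hD : ∀ v, D' v = D v + v.ord f) :
    riemannRochSpace D' ≃ₗ[K] riemannRochSpace D where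
  toFun g := ⟨f * g, by
    rw [mem_riemannRochSpace_iff]
    intro v
    by_cases hg : (g : F) = 0
    · left; simp [hg]
    · right
      have h1 := ((mem_riemannRochSpace_iff.mp g.2) v).resolve_left hg
      rw [v.ord_mul hf hg]
      have := hD v
      omega⟩
  invFun g := ⟨f⁻¹ * g, by
    rw [mem_riemannRochSpace_iff]
    intro v
    by_cases hg : (g : F) = 0
    · left; simp [hg]
    · right
      have h1 := ((mem_riemannRochSpace_iff.mp g.2) v).resolve_left hg
      rw [v.ord_mul (inv_ne_zero hf) hg, v.ord_inv]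
      have := hD v
      omega⟩
  map_add' g g' := by
    apply Subtype.ext
    simp [mul_add]
  map_smul' c g := by
    apply Subtype.ext
    simp
  left_inv g := by
    apply Subtype.ext
    simp [← mul_assoc, inv_mul_cancel₀ hf]
  right_inv g := by
    apply Subtype.ext
    simp [← mul_assoc, mul_inv_cancel₀ hf]

omit h in
theorem ell_congr {D D' : Divisor K F} {f : F} (hf : f ≠ 0) (hD : ∀ v, D' v = D v + v.ord f) :
    ell D' = ell D :=
  (mulEquiv hf hD).finrank_eq

theorem degree_congr {D D' : Divisor K F} {f : F} (hf : f ≠ 0)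
    (hD : ∀ v, D' v = D v + v.ord f) : Divisor.degree D' = Divisor.degree D := by
  obtain ⟨Df, hDf, hdeg⟩ := h.principal f hf
  have : D' = D + Df := by
    ext v
    rw [Finsupp.add_apply, hD v, hDf v]
  rw [this, map_add, hdeg, add_zero]

omit h in
theorem degree_nonneg {E : Divisor K F} (hE : 0 ≤ E) : 0 ≤ Divisor.degree E := by
  refine induction_of_le (P := fun E => 0 ≤ Divisor.degree E) (by simp) ?_ E hE
  intro E v _ hE
  rw [map_add, Divisor.degree_single]
  have : (0 : ℤ) ≤ v.deg := Int.natCast_nonneg _
  omega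

theorem riemannRochSpace_eq_bot {D : Divisor K F} (hD : Divisor.degree D < 0) :
    riemannRochSpace D = ⊥ := by
  rw [eq_bot_iff]
  intro g hg
  rw [Submodule.mem_bot]
  by_contra hg0
  obtain ⟨Dg, hDg, hdeg⟩ := h.principal g hg0
  have hnonneg : 0 ≤ D + Dg := by
    rw [Finsupp.le_def]
    intro v
    have h1 := ((mem_riemannRochSpace_iff.mp hg) v).resolve_left hg0
    rw [Finsupp.add_apply, hDg v]
    simp only [Finsupp.coe_zero, Pi.zero_apply]
    omega
  have := degree_nonneg hnonneg
  rw [map_add, hdeg, add_zero] at this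
  omega

theorem ell_eq_zero {D : Divisor K F} (hD : Divisor.degree D < 0) : ell D = 0 := by
  show finrank K (riemannRochSpace D) = 0
  rw [riemannRochSpace_eq_bot h hD]
  exact finrank_bot K F

end Hyp

section Riemann

variable (h : Hyp K F)
include h

/-- Riemann's inequality with the constant of `Hyp.bound`. -/
theorem exists_bound : ∃ c : ℤ, ∀ D : Divisor K F, Divisor.degree D - ell D ≤ c := by
  obtain ⟨B, c, hB0, hBdeg, hB⟩ := h.bound
  have h0 := h.toHyp0
  refine ⟨c, fun D => ?_⟩
  -- an effective divisor above `D`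
  set D₁ : Divisor K F := D ⊔ 0 with hD₁
  have hDD₁ : D ≤ D₁ := le_sup_left
  have hD₁0 : 0 ≤ D₁ := le_sup_right
  -- choose `l` large
  obtain ⟨l, hl⟩ : ∃ l : ℕ, c + Divisor.degree D₁ < (l : ℤ) * Divisor.degree B := by
    obtain ⟨l, hl⟩ := exists_nat_gt ((c + Divisor.degree D₁ : ℤ) : ℚ)
    refine ⟨l, ?_⟩
    have h1 : (c + Divisor.degree D₁ : ℤ) < (l : ℤ) := by exact_mod_cast hl
    have h2 : (l : ℤ) ≤ (l : ℤ) * Divisor.degree B := by
      have : (0 : ℤ) ≤ l := Int.natCast_nonneg l
      nlinarith
    omega
  have hle : (l • B - D₁ : Divisor K F) ≤ l • B := sub_le_self _ hD₁0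
  have h1 := ell_sub_le h0 hle
  have h2 := hB l
  have hdeg : Divisor.degree (l • B - D₁ : Divisor K F) = l * Divisor.degree B - Divisor.degree D₁ := by
    rw [map_sub, map_nsmul, nsmul_eq_mul]
  have hpos : 0 < ell (l • B - D₁ : Divisor K F) := by
    have : (ell (l • B : Divisor K F) : ℤ) = Module.finrank K (riemannRochSpace (l • B)) := rfl
    rw [hdeg, map_nsmul, nsmul_eq_mul] at h1
    omega
  -- a nonzero element of `L(lB - D₁)`
  have hfin := finite h0 (l • B - D₁ : Divisor K F)
  have hnt : Nontrivial (riemannRochSpace (l • B - D₁ : Divisor K F)) :=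
    Module.nontrivial_of_finrank_pos (R := K) hpos
  obtain ⟨⟨z, hz⟩, hz0⟩ := exists_ne (0 : riemannRochSpace (l • B - D₁ : Divisor K F))
  have hz0' : z ≠ 0 := fun hh => hz0 (Subtype.ext hh)
  obtain ⟨Dz, hDz, -⟩ := h.principal z hz0'
  set D₂ : Divisor K F := D₁ - Dz with hD₂
  have hD₂v : ∀ v, D₂ v = D₁ v + v.ord z⁻¹ := by
    intro v
    rw [hD₂, Finsupp.sub_apply, hDz v, v.ord_inv]
    ring
  have hD₂le : D₂ ≤ l • B := by
    rw [Finsupp.le_def]
    intro v
    have h3 := ((mem_riemannRochSpace_iff.mp hz) v).resolve_left hz0'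
    rw [Finsupp.sub_apply] at h3
    rw [hD₂, Finsupp.sub_apply, hDz v]
    omega
  have e1 := ell_congr (inv_ne_zero hz0') hD₂v
  have e2 := degree_congr h0 (inv_ne_zero hz0') hD₂v
  have e3 := ell_sub_le h0 hDD₁
  have e4 := ell_sub_le h0 hD₂le
  rw [map_nsmul, nsmul_eq_mul] at e4
  have : (ell (l • B : Divisor K F) : ℤ) = Module.finrank K (riemannRochSpace (l • B)) := rfl
  omega

/-- Riemann's theorem: existence of the genus. -/
theorem exists_genus : ∃ g : ℤ, (∀ D : Divisor K F, Divisor.degree D + 1 - g ≤ ell D) ∧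
    ∃ D₀ : Divisor K F, ∀ D, D₀ ≤ D → (ell D : ℤ) = Divisor.degree D + 1 - g := by
  obtain ⟨c, hc⟩ := exists_bound h
  have h0 := h.toHyp0
  obtain ⟨g, ⟨D₀, hD₀⟩, hmax⟩ := Int.exists_greatest_of_bdd
    (P := fun n : ℤ => ∃ D : Divisor K F, n = Divisor.degree D - ell D + 1)
    ⟨c + 1, fun n ⟨D, hD⟩ => by have := hc D; omega⟩
    ⟨_, 0, rfl⟩
  refine ⟨g, fun D => ?_, D₀, fun D hD => ?_⟩
  · have := hmax _ ⟨D, rfl⟩
    omega
  · have h1 := hmax _ ⟨D, rfl⟩
    have h2 := ell_sub_le h0 hD
    omega

end Riemann

end Divisor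

end Fermat.Agent.S20.RR
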