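/-
S20/S21 lower bound, analytic half of DICT: a meromorphic `Γ₀(N)`-invariant function `h = u / v`
on the upper half plane such that `h * (j - j τ)` vanishes at every `τ` and `(h ∘ γ) * j` tends to
`0` at `i∞` for every `γ ∈ SL(2, ℤ)` gives the weight two cusp form `h * j'`.
-/
import Mathlib
import Fermat.Agent.S23.JN
import Fermat.Agent.S24.JLocal

set_option autoImplicit false

open UpperHalfPlane hiding I
open Filter Topology Function Complex
open scoped MatrixGroups ModularForm Manifold Real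

noncomputable section

namespace Fermat.Agent.S20.DictAn

open ModularForm EisensteinSeries CongruenceSubgroup Fermat.Agent.S23 Fermat.Agent.S24

local notation "Δ" => ModularForm.discriminant

/-! ### Division by orders -/

/-- **Division by orders.** On a connected open set, if `B ≢ 0` and the order of `A` is at least
the order of `B` at every point, then `A = g * B` with `g` holomorphic. -/
theorem exists_differentiableOn_quotient {U : Set ℂ} (hU : IsOpen U) (hUc : IsPreconnected U)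
    {A B : ℂ → ℂ} (hA : DifferentiableOn ℂ A U) (hB : DifferentiableOn ℂ B U)
    (hB0 : ∃ z ∈ U, B z ≠ 0)
    (hord : ∀ z ∈ U, analyticOrderAt B z ≤ analyticOrderAt A z) :
    ∃ g : ℂ → ℂ, DifferentiableOn ℂ g U ∧ ∀ z ∈ U, A z = g z * B z := by
  classical
  have hAan : AnalyticOnNhd ℂ A U := hA.analyticOnNhd hU
  have hBan : AnalyticOnNhd ℂ B U := hB.analyticOnNhd hU
  -- the order of `B` is finite everywhere
  have hfin : ∀ z ∈ U, analyticOrderAt B z ≠ ⊤ := by
    intro z hz htop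
    obtain ⟨z₁, hz₁, hz₁0⟩ := hB0
    rw [analyticOrderAt_eq_top] at htop
    exact hz₁0 (hBan.eqOn_zero_of_preconnected_of_eventuallyEq_zero hUc hz htop hz₁)
  -- local quotients
  have hloc : ∀ z ∈ U, ∃ q : ℂ → ℂ, AnalyticAt ℂ q z ∧
      (∀ᶠ w in 𝓝 z, A w = q w * B w) ∧ (∀ᶠ w in 𝓝[≠] z, B w ≠ 0) := by
    intro z hz
    obtain ⟨B₁, hB₁, hB₁0, hB₁eq⟩ := ((hBan z hz).analyticOrderAt_ne_top).mp (hfin z hz)
    have hle : ((analyticOrderNatAt B z : ℕ) : ℕ∞) ≤ analyticOrderAt A z := by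
      rw [Nat.cast_analyticOrderNatAt (hfin z hz)]
      exact hord z hz
    obtain ⟨A₁, hA₁, hA₁eq⟩ := (natCast_le_analyticOrderAt (hAan z hz)).mp hle
    have hB₁ne : ∀ᶠ w in 𝓝 z, B₁ w ≠ 0 := hB₁.continuousAt.eventually_ne hB₁0
    refine ⟨fun w => A₁ w / B₁ w, hA₁.div hB₁ hB₁0, ?_, ?_⟩
    · filter_upwards [hB₁eq, hA₁eq, hB₁ne] with w h1 h2 h3
      rw [h1, h2]
      simp only [smul_eq_mul]
      field_simp
    · have h1 : ∀ᶠ w in 𝓝[≠] z, B₁ w ≠ 0 := hB₁ne.filter_mono nhdsWithin_le_nhds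
      have h2 : ∀ᶠ w in 𝓝[≠] z, B w = (w - z) ^ analyticOrderNatAt B z • B₁ w :=
        hB₁eq.filter_mono nhdsWithin_le_nhds
      filter_upwards [h1, h2, self_mem_nhdsWithin] with w h3 h4 h5
      rw [h4]
      simp only [smul_eq_mul]
      exact mul_ne_zero (pow_ne_zero _ (sub_ne_zero.mpr h5)) h3
  choose! q hq hqeq hqne using hloc
  refine ⟨fun w => if B w ≠ 0 then A w / B w else q w w, ?_, ?_⟩
  · intro z hz
    have heq : (fun w => if B w ≠ 0 then A w / B w else q w w) =ᶠ[𝓝 z] q z := by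
      have h1 : ∀ᶠ w in 𝓝[≠] z, (if B w ≠ 0 then A w / B w else q w w) = q z w := by
        filter_upwards [hqne z hz, (hqeq z hz).filter_mono nhdsWithin_le_nhds] with w h2 h3
        rw [if_pos h2, h3]
        field_simp
      have h0 : (if B z ≠ 0 then A z / B z else q z z) = q z z := by
        by_cases hBz : B z ≠ 0
        · rw [if_pos hBz, (hqeq z hz).self_of_nhds]
          field_simp
        · rw [if_neg hBz]
      rw [eventually_nhdsWithin_iff] at h1
      filter_upwards [h1] with w hw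
      by_cases hwz : w = z
      · subst hwz
        exact h0
      · exact hw hwz
    exact ((hq z hz).congr heq.symm).differentiableAt.differentiableWithinAt
  · intro z hz
    by_cases hBz : B z ≠ 0
    · simp only [if_pos hBz]
      field_simp
    · simp only [if_neg hBz]
      exact (hqeq z hz).self_of_nhds

/-! ### The derivative of `j` -/

/-- `dj/dz` as a function on the upper half plane. -/
def jDeriv (z : ℍ) : ℂ := deriv (JN.jFun ∘ ofComplex) (z : ℂ)

theorem jDeriv_eq (z : ℍ) : jDeriv z = -(2 * π * I) * (E₄ z ^ 2 * E₆ z) / Δ z := by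
  rw [jDeriv, JLocal.deriv_comp_ofComplex, JLocal.D_jFun]
  ring

theorem jDeriv_ofComplex {w : ℂ} (hw : 0 < w.im) :
    jDeriv (ofComplex w) = deriv (JN.jFun ∘ ofComplex) w := by
  rw [jDeriv, ofComplex_apply_of_im_pos hw]

theorem holo_jDeriv : JN.Holo jDeriv := by
  have h : DifferentiableOn ℂ (deriv (JN.jFun ∘ ofComplex)) {z : ℂ | 0 < z.im} :=
    DifferentiableOn.deriv JN.holo_jFun isOpen_upperHalfPlaneSet
  exact h.congr fun w hw => jDeriv_ofComplex hw

theorem mdiff_jDeriv : MDiff jDeriv := JN.holo_iff_mdiff.mp holo_jDeriv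

/-- `j'` has weight two. -/
theorem jDeriv_smul (γ : SL(2, ℤ)) (z : ℍ) : jDeriv (γ • z) = denom γ z ^ 2 * jDeriv z := by
  have h4 : E₄ (γ • z) = denom γ z ^ (4 : ℤ) * E₄ z :=
    SlashInvariantForm.slash_action_eqn'' (Γ := 𝒮ℒ) E₄
      (γ := Matrix.SpecialLinearGroup.mapGL ℝ γ) ⟨γ, rfl⟩ z
  have h6 : E₆ (γ • z) = denom γ z ^ (6 : ℤ) * E₆ z :=
    SlashInvariantForm.slash_action_eqn'' (Γ := 𝒮ℒ) E₆
      (γ := Matrix.SpecialLinearGroup.mapGL ℝ γ) ⟨γ, rfl⟩ z
  have h12 : CuspForm.discriminant (γ • z) = denom γ z ^ (12 : ℤ) * CuspForm.discriminant z :=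
    SlashInvariantForm.slash_action_eqn'' (Γ := 𝒮ℒ) CuspForm.discriminant
      (γ := Matrix.SpecialLinearGroup.mapGL ℝ γ) ⟨γ, rfl⟩ z
  have hd : denom γ z ≠ 0 := denom_ne_zero _ z
  have hΔ : Δ z ≠ 0 := ModularForm.discriminant_ne_zero z
  simp only [CuspForm.coe_discriminant] at h12
  rw [jDeriv_eq, jDeriv_eq, h4, h6, h12]
  simp only [zpow_ofNat]
  have hne : (denom γ z : ℂ) ^ 12 * Δ z ≠ 0 := mul_ne_zero (pow_ne_zero _ hd) hΔ
  rw [← mul_div_assoc, div_eq_div_iff hne hΔ]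
  ring

/-- The vanishing order of `j'` is one less than the vanishing order of `j - j(τ)`. -/
theorem order_jDeriv (τ : ℍ) :
    analyticOrderAt (jDeriv ∘ ofComplex) (τ : ℂ) + 1 =
      analyticOrderAt (fun w : ℂ => JN.jFun (ofComplex w) - JN.jFun τ) (τ : ℂ) := by
  have han := JLocal.analyticAt_comp_ofComplex JN.mdiff_jFun τ
  have h := han.analyticOrderAt_deriv_add_one
  have heq : jDeriv ∘ ofComplex =ᶠ[𝓝 (τ : ℂ)] deriv (JN.jFun ∘ ofComplex) := by
    filter_upwards [isOpen_upperHalfPlaneSet.mem_nhds τ.2] with w hw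
    exact jDeriv_ofComplex hw
  rw [analyticOrderAt_congr heq, h]
  simp [ofComplex_apply]

theorem jDeriv_mul_E4 (z : ℍ) : jDeriv z * E₄ z = -(2 * π * I) * E₆ z * JN.jFun z := by
  have hΔ : Δ z ≠ 0 := ModularForm.discriminant_ne_zero z
  rw [jDeriv_eq, JLocal.jFun_eq]
  field_simp

/-- Near `i∞`, `j'` is bounded by a multiple of `j`. -/
theorem eventually_norm_jDeriv_le :
    ∀ᶠ z in atImInfty, ‖jDeriv z‖ ≤ 8 * π * ‖JN.jFun z‖ := by
  have h4 : ∀ᶠ z : ℍ in atImInfty, (1 / 2 : ℝ) < ‖E₄ z‖ := by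
    have := JLocal.tendsto_E4.norm
    rw [norm_one] at this
    exact this.eventually (lt_mem_nhds (by norm_num))
  have h6 : ∀ᶠ z : ℍ in atImInfty, ‖E₆ z‖ < 2 := by
    have := JLocal.tendsto_E6.norm
    rw [norm_one] at this
    exact this.eventually (gt_mem_nhds (by norm_num))
  filter_upwards [h4, h6] with z hz4 hz6
  have h := congrArg norm (jDeriv_mul_E4 z)
  rw [norm_mul, norm_mul, norm_mul, norm_neg] at h
  have hpi : ‖(2 * (π : ℂ) * I)‖ = 2 * π := by
    simp [abs_of_pos Real.pi_pos]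
  rw [hpi] at h
  have hj := norm_nonneg (JN.jFun z)
  have hd := norm_nonneg (jDeriv z)
  have hpos := Real.pi_pos
  have h1 : ‖jDeriv z‖ * (1 / 2) ≤ ‖jDeriv z‖ * ‖E₄ z‖ :=
    mul_le_mul_of_nonneg_left hz4.le hd
  have h2 : 2 * π * ‖E₆ z‖ * ‖JN.jFun z‖ ≤ 2 * π * 2 * ‖JN.jFun z‖ := by
    apply mul_le_mul_of_nonneg_right _ hj
    apply mul_le_mul_of_nonneg_left hz6.le
    positivity
  nlinarith

theorem jDeriv_ne_zero : ∃ z : ℍ, jDeriv z ≠ 0 := by
  obtain ⟨z, hz⟩ := JN.exists_common_ne_zero (fun i : Fin 2 => if i = 0 then ⇑E₄ else ⇑E₆)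
    (fun i => by
      by_cases hi : i = 0
      · simp only [hi, if_true]
        exact JN.holo_iff_mdiff.mpr (ModularFormClass.holo E₄)
      · simp only [hi, if_false]
        exact JN.holo_iff_mdiff.mpr (ModularFormClass.holo E₆))
    (fun i => by
      by_cases hi : i = 0
      · simp only [hi, if_true]
        have h := JLocal.tendsto_E4
        by_contra hcon
        push Not at hcon
        have : Tendsto (fun z : ℍ => E₄ z) atImInfty (𝓝 0) := by
          simp only [hcon]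
          exact tendsto_const_nhds
        exact one_ne_zero (tendsto_nhds_unique h this)
      · simp only [hi, if_false]
        have h := JLocal.tendsto_E6
        by_contra hcon
        push Not at hcon
        have : Tendsto (fun z : ℍ => E₆ z) atImInfty (𝓝 0) := by
          simp only [hcon]
          exact tendsto_const_nhds
        exact one_ne_zero (tendsto_nhds_unique h this))
  refine ⟨z, ?_⟩
  have h4 : E₄ z ≠ 0 := by simpa using hz 0
  have h6 : E₆ z ≠ 0 := by simpa using hz 1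
  have hΔ : Δ z ≠ 0 := ModularForm.discriminant_ne_zero z
  rw [jDeriv_eq]
  have hpi : (2 * (π : ℂ) * I) ≠ 0 := JLocal.two_pi_I_ne_zero
  exact div_ne_zero (mul_ne_zero (neg_ne_zero.mpr hpi) (mul_ne_zero (pow_ne_zero _ h4) h6)) hΔ

/-! ### Density of the non-vanishing locus -/

/-- A continuous function on `ℍ` which is bounded by `ε` on the part of `{A < im}` where a
nonzero holomorphic function does not vanish is bounded by `ε` on all of `{A < im}`. -/
theorem norm_le_of_norm_le_off_zeros {G V : ℍ → ℂ} (hG : Continuous G) (hV : MDiff V)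
    (hV0 : ∃ z, V z ≠ 0) {A ε : ℝ} (h : ∀ z : ℍ, A < z.im → V z ≠ 0 → ‖G z‖ ≤ ε) (z : ℍ)
    (hz : A < z.im) : ‖G z‖ ≤ ε := by
  have hUo : IsOpen {w : ℂ | 0 < w.im} := isOpen_upperHalfPlaneSet
  have hUc : IsPreconnected {w : ℂ | 0 < w.im} := (convex_halfSpace_im_gt 0).isPreconnected
  have han : AnalyticOnNhd ℂ (V ∘ ofComplex) {w : ℂ | 0 < w.im} :=
    (UpperHalfPlane.mdifferentiable_iff.mp hV).analyticOnNhd hUo
  have hne : ∀ᶠ w in 𝓝[≠] (z : ℂ), (V ∘ ofComplex) w ≠ 0 := by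
    rcases (han z z.2).eventually_eq_zero_or_eventually_ne_zero with h0 | h0
    · exfalso
      obtain ⟨z₁, hz₁⟩ := hV0
      have := han.eqOn_zero_of_preconnected_of_eventuallyEq_zero hUc z.2 h0
        (show (z₁ : ℂ) ∈ {w : ℂ | 0 < w.im} from z₁.2)
      apply hz₁
      simpa using this
    · exact h0
  have hmem : ∀ᶠ w in 𝓝[≠] (z : ℂ), 0 < w.im ∧ A < w.im := by
    apply eventually_nhdsWithin_of_eventually_nhds
    exact (hUo.eventually_mem z.2).and
      ((isOpen_lt continuous_const Complex.continuous_im).eventually_mem hz)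
  have hbound : ∀ᶠ w in 𝓝[≠] (z : ℂ), ‖G (ofComplex w)‖ ≤ ε := by
    filter_upwards [hne, hmem] with w h1 h2
    apply h (ofComplex w) _ h1
    rw [ofComplex_apply_of_im_pos h2.1]
    exact h2.2
  have hcont : Tendsto (fun w => G (ofComplex w)) (𝓝[≠] (z : ℂ)) (𝓝 (G z)) := by
    have h1 : ContinuousAt (G ∘ ofComplex) (z : ℂ) :=
      ContinuousAt.comp hG.continuousAt (mdifferentiableAt_ofComplex z.2).continuousAt
    have h2 := h1.tendsto
    simp only [Function.comp_apply, ofComplex_apply] at h2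
    exact h2.mono_left nhdsWithin_le_nhds
  exact le_of_tendsto hcont.norm hbound

/-! ### The cusp form `h * j'` -/

/-- **Analytic half of DICT** (with the cusp condition in `ε`-form). -/
theorem exists_cuspForm_of_ratio' (N : ℕ) [NeZero N] (u v : ℍ → ℂ) (hu : JN.Holo u)
    (hv : JN.Holo v) (hv0 : ∃ z, v z ≠ 0)
    (hinv : ∀ γ ∈ Gamma0 N, ∀ z : ℍ, u (γ • z) * v z = u z * v (γ • z))
    (hfin : ∀ τ : ℍ, analyticOrderAt (v ∘ ofComplex) (τ : ℂ) + 1 ≤
      analyticOrderAt (fun w : ℂ => u (ofComplex w) * (JN.jFun (ofComplex w) - JN.jFun τ))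
        (τ : ℂ))
    (hcusp : ∀ γ : SL(2, ℤ), ∀ ε : ℝ, 0 < ε → ∃ A : ℝ, ∀ z : ℍ, A < z.im → v (γ • z) ≠ 0 →
      ‖u (γ • z) * JN.jFun z‖ ≤ ε * ‖v (γ • z)‖) :
    ∃ f : CuspForm (Gamma0 N) 2, ∀ z, f z * v z = u z * jDeriv z := by
  have hUo : IsOpen {w : ℂ | 0 < w.im} := isOpen_upperHalfPlaneSet
  have hUc : IsPreconnected {w : ℂ | 0 < w.im} := (convex_halfSpace_im_gt 0).isPreconnected
  obtain ⟨z₁, hz₁⟩ := hv0
  have hA : DifferentiableOn ℂ (fun w => u (ofComplex w) * jDeriv (ofComplex w))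
      {w : ℂ | 0 < w.im} := hu.mul holo_jDeriv
  have hord : ∀ w ∈ {w : ℂ | 0 < w.im}, analyticOrderAt (v ∘ ofComplex) w ≤
      analyticOrderAt (fun w => u (ofComplex w) * jDeriv (ofComplex w)) w := by
    intro w hw
    have hua : AnalyticAt ℂ (u ∘ ofComplex) w := hu.analyticAt (hUo.mem_nhds hw)
    have hja : AnalyticAt ℂ (jDeriv ∘ ofComplex) w := holo_jDeriv.analyticAt (hUo.mem_nhds hw)
    have hjs : AnalyticAt ℂ (fun x : ℂ => JN.jFun (ofComplex x) - JN.jFun ⟨w, hw⟩) w :=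
      (JN.holo_jFun.analyticAt (hUo.mem_nhds hw)).sub analyticAt_const
    have h1 : analyticOrderAt (fun x => u (ofComplex x) * jDeriv (ofComplex x)) w =
        analyticOrderAt (u ∘ ofComplex) w + analyticOrderAt (jDeriv ∘ ofComplex) w :=
      analyticOrderAt_mul hua hja
    have h2 : analyticOrderAt
        (fun x => u (ofComplex x) * (JN.jFun (ofComplex x) - JN.jFun ⟨w, hw⟩)) w =
        analyticOrderAt (u ∘ ofComplex) w +
          analyticOrderAt (fun x : ℂ => JN.jFun (ofComplex x) - JN.jFun ⟨w, hw⟩) w :=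
      analyticOrderAt_mul hua hjs
    have h3 : analyticOrderAt (jDeriv ∘ ofComplex) w + 1 =
        analyticOrderAt (fun x : ℂ => JN.jFun (ofComplex x) - JN.jFun ⟨w, hw⟩) w :=
      order_jDeriv ⟨w, hw⟩
    have h4 : analyticOrderAt (v ∘ ofComplex) w + 1 ≤ analyticOrderAt
        (fun x => u (ofComplex x) * (JN.jFun (ofComplex x) - JN.jFun ⟨w, hw⟩)) w :=
      hfin ⟨w, hw⟩
    rw [h2, ← h3, ← add_assoc, ← h1] at h4
    exact (ENat.add_le_add_iff_right ENat.one_ne_top).mp h4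
  obtain ⟨g, hgd, hg⟩ := exists_differentiableOn_quotient hUo hUc hA hv
    ⟨(z₁ : ℂ), z₁.2, by simpa [ofComplex_apply] using hz₁⟩ hord
  set f0 : ℍ → ℂ := fun z => g (z : ℂ) with hf0
  have hf0d : MDiff f0 := by
    rw [UpperHalfPlane.mdifferentiable_iff]
    refine hgd.congr fun w hw => ?_
    simp only [Function.comp_apply, hf0]
    rw [ofComplex_apply_of_im_pos hw]
  have hrel : ∀ z : ℍ, f0 z * v z = u z * jDeriv z := by
    intro z
    have := hg (z : ℂ) z.2
    simpa [ofComplex_apply] using this.symm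
  have hvd : MDiff v := JN.holo_iff_mdiff.mp hv
  have hvγ : ∀ γ : SL(2, ℤ), MDiff (v ∣[(0 : ℤ)] γ) := fun γ => hvd.slash 0 _
  have hvγ_apply : ∀ (γ : SL(2, ℤ)) (z : ℍ), (v ∣[(0 : ℤ)] γ) z = v (γ • z) := by
    intro γ z
    rw [ModularForm.SL_slash_apply]
    simp
  have hvγ0 : ∀ γ : SL(2, ℤ), ∃ z, (v ∣[(0 : ℤ)] γ) z ≠ 0 := by
    intro γ
    refine ⟨γ⁻¹ • z₁, ?_⟩
    rw [hvγ_apply, smul_inv_smul]
    exact hz₁
  have hden : ∀ (γ : SL(2, ℤ)) (z : ℍ), (denom γ z : ℂ) ^ (-2 : ℤ) * denom γ z ^ 2 = 1 := by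
    intro γ z
    have hD0 : (denom γ z : ℂ) ≠ 0 := denom_ne_zero γ z
    rw [zpow_neg, zpow_ofNat]
    exact inv_mul_cancel₀ (pow_ne_zero _ hD0)
  -- slash invariance
  have hslash : ∀ γ : SL(2, ℤ), γ ∈ Gamma0 N → f0 ∣[(2 : ℤ)] γ = f0 := by
    intro γ hγ
    have h2 : (f0 ∣[(2 : ℤ)] γ - f0) * (v * (v ∣[(0 : ℤ)] γ)) = 0 := by
      funext z
      simp only [Pi.mul_apply, Pi.sub_apply, Pi.zero_apply, hvγ_apply]
      rw [ModularForm.SL_slash_apply]
      have e1 := hrel (γ • z)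
      rw [jDeriv_smul] at e1
      have e2 := hrel z
      have e3 := hinv γ hγ z
      have e4 := hden γ z
      linear_combination (denom γ z : ℂ) ^ (-2 : ℤ) * v z * e1 +
        v z * u (γ • z) * jDeriv z * e4 + jDeriv z * e3 - v (γ • z) * e2
    have hdiff : MDiff (f0 ∣[(2 : ℤ)] γ - f0) := (hf0d.slash 2 _).sub hf0d
    rcases (UpperHalfPlane.mul_eq_zero_iff hdiff (hvd.mul (hvγ γ))).mp h2 with h3 | h3
    · exact sub_eq_zero.mp h3
    · exfalso
      rcases (UpperHalfPlane.mul_eq_zero_iff hvd (hvγ γ)).mp h3 with h4 | h4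
      · exact hz₁ (congrFun h4 z₁)
      · obtain ⟨z₂, hz₂⟩ := hvγ0 γ
        exact hz₂ (congrFun h4 z₂)
  -- vanishing at the cusps
  have hzero : ∀ γ : SL(2, ℤ), IsZeroAtImInfty (f0 ∣[(2 : ℤ)] γ) := by
    intro γ
    rw [UpperHalfPlane.isZeroAtImInfty_iff]
    intro ε hε
    obtain ⟨A₁, hA₁⟩ := (atImInfty_mem _).mp eventually_norm_jDeriv_le
    have hpos : 0 < ε / (8 * π) := div_pos hε (by positivity)
    obtain ⟨A₂, hA₂⟩ := hcusp γ (ε / (8 * π)) hpos
    refine ⟨max A₁ A₂ + 1, fun z hz => ?_⟩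
    have hzA : max A₁ A₂ < z.im := by linarith
    refine norm_le_of_norm_le_off_zeros (A := max A₁ A₂) (V := v ∣[(0 : ℤ)] γ)
      (hf0d.slash 2 _).continuous (hvγ γ) (hvγ0 γ) ?_ z hzA
    intro w hw hvw
    rw [hvγ_apply] at hvw
    have e1 := hrel (γ • w)
    rw [jDeriv_smul] at e1
    have e5 : (f0 ∣[(2 : ℤ)] γ) w * v (γ • w) = u (γ • w) * jDeriv w := by
      rw [ModularForm.SL_slash_apply]
      have e4 := hden γ w
      linear_combination (denom γ w : ℂ) ^ (-2 : ℤ) * e1 + u (γ • w) * jDeriv w * e4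
    have h1 : ‖jDeriv w‖ ≤ 8 * π * ‖JN.jFun w‖ :=
      hA₁ w (by have := le_max_left A₁ A₂; linarith)
    have h2 := hA₂ w (by have := le_max_right A₁ A₂; linarith) hvw
    have h3 : ‖(f0 ∣[(2 : ℤ)] γ) w‖ * ‖v (γ • w)‖ ≤ ε * ‖v (γ • w)‖ := by
      rw [← norm_mul, e5, norm_mul]
      calc ‖u (γ • w)‖ * ‖jDeriv w‖ ≤ ‖u (γ • w)‖ * (8 * π * ‖JN.jFun w‖) :=
            mul_le_mul_of_nonneg_left h1 (norm_nonneg _)
        _ = 8 * π * ‖u (γ • w) * JN.jFun w‖ := by rw [norm_mul]; ring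
        _ ≤ 8 * π * (ε / (8 * π) * ‖v (γ • w)‖) :=
            mul_le_mul_of_nonneg_left h2 (by positivity)
        _ = ε * ‖v (γ • w)‖ := by
            have hpi : (8 * π : ℝ) ≠ 0 := by positivity
            field_simp
    exact le_of_mul_le_mul_right h3 (norm_pos_iff.mpr hvw)
  have hslash' : ∀ γ ∈ (Gamma0 N : Subgroup (GL (Fin 2) ℝ)), f0 ∣[(2 : ℤ)] γ = f0 := by
    intro γ hγ
    obtain ⟨γ', hγ', rfl⟩ := Subgroup.mem_map.mp hγ
    exact hslash γ' hγ'
  refine ⟨{ toFun := f0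
            slash_action_eq' := hslash'
            holo' := hf0d
            zero_at_cusps' := ?_ }, hrel⟩
  intro x hx
  have hx' : IsCusp x 𝒮ℒ :=
    (Subgroup.IsArithmetic.isCusp_iff_isCusp_SL2Z (Gamma0 N : Subgroup (GL (Fin 2) ℝ))).mp hx
  rw [OnePoint.isZeroAt_iff_forall_SL2Z hx']
  intro γ _
  exact hzero γ

/-- **Analytic half of DICT**: if `h = u / v` is `Γ₀(N)`-invariant, `h * (j - j τ)` vanishes at
`τ` for every `τ`, and `(h ∘ γ) * j → 0` at `i∞` for every `γ ∈ SL(2, ℤ)`, then `h * j'` is a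
cusp form of weight two on `Γ₀(N)`. -/
theorem exists_cuspForm_of_ratio (N : ℕ) [NeZero N] (u v : ℍ → ℂ) (hu : JN.Holo u)
    (hv : JN.Holo v) (hv0 : ∃ z, v z ≠ 0)
    (hinv : ∀ γ ∈ Gamma0 N, ∀ z : ℍ, u (γ • z) * v z = u z * v (γ • z))
    (hfin : ∀ τ : ℍ, analyticOrderAt (v ∘ ofComplex) (τ : ℂ) + 1 ≤
      analyticOrderAt (fun w : ℂ => u (ofComplex w) * (JN.jFun (ofComplex w) - JN.jFun τ))
        (τ : ℂ))
    (hcusp : ∀ γ : SL(2, ℤ),
      Tendsto (fun z : ℍ => u (γ • z) * JN.jFun z / v (γ • z)) atImInfty (𝓝 0)) :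
    ∃ f : CuspForm (Gamma0 N) 2, ∀ z, f z * v z = u z * jDeriv z := by
  refine exists_cuspForm_of_ratio' N u v hu hv hv0 hinv hfin fun γ ε hε => ?_
  have h := (hcusp γ).norm
  rw [norm_zero] at h
  have h2 : ∀ᶠ z in atImInfty, ‖u (γ • z) * JN.jFun z / v (γ • z)‖ < ε :=
    h.eventually (gt_mem_nhds hε)
  obtain ⟨A, hA⟩ := (atImInfty_mem _).mp h2
  refine ⟨A, fun z hz hvz => ?_⟩
  have h3 : ‖u (γ • z) * JN.jFun z / v (γ • z)‖ < ε := hA z hz.le
  rw [norm_div, div_lt_iff₀ (norm_pos_iff.mpr hvz)] at h3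
  exact h3.le

/-! ### Uniqueness, linearity and injectivity of `h ↦ h * j'` -/

/-- Cancellation of a nonzero holomorphic factor. -/
theorem eq_of_mul_eq_mul {f f' w : ℍ → ℂ} (hf : MDiff f) (hf' : MDiff f') (hw : MDiff w)
    (hw0 : ∃ z, w z ≠ 0) (h : ∀ z, f z * w z = f' z * w z) : f = f' := by
  have h2 : (f - f') * w = 0 := by
    funext z
    simp only [Pi.mul_apply, Pi.sub_apply, Pi.zero_apply]
    linear_combination h z
  rcases (UpperHalfPlane.mul_eq_zero_iff (hf.sub hf') hw).mp h2 with h3 | h3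
  · exact sub_eq_zero.mp h3
  · obtain ⟨z, hz⟩ := hw0
    exact absurd (congrFun h3 z) hz

/-- The cusp form `h * j'` does not depend on the representation `h = u / v`. -/
theorem cuspForm_eq_of_ratio {N : ℕ} {u v u' v' : ℍ → ℂ} (hv : JN.Holo v) (hv' : JN.Holo v')
    (hv0 : ∃ z, v z ≠ 0) (hv0' : ∃ z, v' z ≠ 0) (hcross : ∀ z, u z * v' z = u' z * v z)
    (f f' : CuspForm (Gamma0 N) 2) (hf : ∀ z, f z * v z = u z * jDeriv z)
    (hf' : ∀ z, f' z * v' z = u' z * jDeriv z) : f = f' := by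
  have hvd : MDiff v := JN.holo_iff_mdiff.mp hv
  have hvd' : MDiff v' := JN.holo_iff_mdiff.mp hv'
  have hne : ∃ z, (v * v') z ≠ 0 := by
    by_contra hcon
    push Not at hcon
    rcases (UpperHalfPlane.mul_eq_zero_iff hvd hvd').mp (funext hcon) with h | h
    · obtain ⟨z, hz⟩ := hv0
      exact hz (congrFun h z)
    · obtain ⟨z, hz⟩ := hv0'
      exact hz (congrFun h z)
  have h := eq_of_mul_eq_mul (ModularFormClass.holo f) (ModularFormClass.holo f') (hvd.mul hvd')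
    hne (fun z => by
      simp only [Pi.mul_apply]
      linear_combination v' z * hf z - v z * hf' z + jDeriv z * hcross z)
  exact DFunLike.coe_injective h

/-- Additivity of `h ↦ h * j'`. -/
theorem cuspForm_add_of_ratio {N : ℕ} {u₁ v₁ u₂ v₂ : ℍ → ℂ} (f₁ f₂ : CuspForm (Gamma0 N) 2)
    (h₁ : ∀ z, f₁ z * v₁ z = u₁ z * jDeriv z) (h₂ : ∀ z, f₂ z * v₂ z = u₂ z * jDeriv z)
    (z : ℍ) : (f₁ + f₂) z * (v₁ z * v₂ z) = (u₁ z * v₂ z + u₂ z * v₁ z) * jDeriv z := by
  rw [add_apply]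
  linear_combination v₂ z * h₁ z + v₁ z * h₂ z

/-- Homogeneity of `h ↦ h * j'`. -/
theorem cuspForm_smul_of_ratio {N : ℕ} {u v : ℍ → ℂ} (f : CuspForm (Gamma0 N) 2) (c : ℂ)
    (h : ∀ z, f z * v z = u z * jDeriv z) (z : ℍ) :
    (c • f) z * v z = (c * u z) * jDeriv z := by
  rw [smul_apply, smul_eq_mul]
  linear_combination c * h z

/-- Injectivity of `h ↦ h * j'`. -/
theorem eq_zero_of_ratio {N : ℕ} {u v : ℍ → ℂ} (hu : JN.Holo u) (f : CuspForm (Gamma0 N) 2)
    (h : ∀ z, f z * v z = u z * jDeriv z) (hf : f = 0) : u = 0 := by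
  have hud : MDiff u := JN.holo_iff_mdiff.mp hu
  have h2 : u * jDeriv = 0 := by
    funext z
    simp only [Pi.mul_apply, Pi.zero_apply]
    rw [← h z, hf]
    simp
  rcases (UpperHalfPlane.mul_eq_zero_iff hud mdiff_jDeriv).mp h2 with h3 | h3
  · exact h3
  · obtain ⟨z, hz⟩ := jDeriv_ne_zero
    exact absurd (congrFun h3 z) hz

end Fermat.Agent.S20.DictAn
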