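import Mathlib
import Fermat.Prelude.Def_AlgebraicCurve_Repartitions

/-!
# Residues of differentials `h dx` at the places of a function field: definitions

`δ : Derivation K F F` plays the role of `d/dx`.  Only definitions live here; the local
calculus is in `ResLocal.lean`.
-/

set_option autoImplicit false

noncomputable section

namespace Fermat.Agent.S20.Res

open AlgebraicCurve

variable {K F : Type*} [Field K] [Field F] [Algebra K F]

/-- Hypotheses on a derivation `δ` of `F/K` (think `δ = d/dx`). -/
structure DerivHyp (δ : Derivation K F F) : Prop where
  deg_one : ∀ v : Place K F, v.deg = 1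
  unif_ne : ∀ (v : Place K F) (π : F), v.ord π = 1 → δ π ≠ 0
  regular : ∀ (v : Place K F) (π f : F), v.ord π = 1 → f ∈ v.toValuationSubring →
    δ f / δ π ∈ v.toValuationSubring

/-- `p` is the principal part of `f` at `v` w.r.t. the uniformizer `π`. -/
def IsPP (v : Place K F) (π f : F) (p : Polynomial K) : Prop :=
  p.coeff 0 = 0 ∧ f - Polynomial.aeval π⁻¹ p ∈ v.toValuationSubring

open Classical in
/-- principal part of `f` at `v` w.r.t. `π` (junk value `0` if it does not exist). -/
def ppart (v : Place K F) (π f : F) : Polynomial K :=
  if h : ∃ p, IsPP v π f p then h.choose else 0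

/-- coefficient of `π⁻¹` in the `π`-adic expansion of `f` at `v`. -/
def resπ (v : Place K F) (π f : F) : K := (ppart v π f).coeff 1

/-- a chosen uniformizer -/
def unif (v : Place K F) : F :=
  ((IsDiscreteValuationRing.exists_irreducible v.toValuationSubring).choose : F)

/-- residue at `v` of the differential `h dx`, where `δ = d/dx`. -/
def res (δ : Derivation K F F) (v : Place K F) (h : F) : K := resπ v (unif v) (h / δ (unif v))

end Fermat.Agent.S20.Res
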